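import Mathlib.Analysis.SpecialFunctions.Log.Basic
import Mathlib.Analysis.SpecialFunctions.Pow.Real
import Mathlib.Analysis.Convex.SpecificFunctions.Basic
import Mathlib.Analysis.PSeries
import Mathlib.NumberTheory.PrimeCounting
import Mathlib.NumberTheory.Primorial
import Mathlib.Algebra.BigOperators.Associated
import Mathlib.Analysis.Complex.Norm

/-!
From `∑_{n ≤ X} |a n|² = O(X)` and multiplicativity to
`∑ |a p|² p^{-s} ≤ A log (1/(s-1)) + B`, with `A = 1` when the `a p` are bounded.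
-/

set_option autoImplicit false

open Finset Real

noncomputable section

namespace FLTA.DeligneSerre

theorem half_le_one_sub_two_rpow_neg {t : ℝ} (h0 : 0 ≤ t) (h1 : t ≤ 1) :
    t / 2 ≤ 1 - (2 : ℝ) ^ (-t) := by
  have := rpow_one_add_le_one_add_mul_self (s := -(1/2 : ℝ)) (by norm_num) h0 h1
  rw [Real.rpow_neg two_pos.le, ← Real.inv_rpow two_pos.le]
  norm_num at this ⊢
  linarith

theorem exists_sum_rpow_le (b : ℕ → ℝ) (hb : ∀ n, 0 ≤ b n) (C : ℝ) (hC : 0 ≤ C)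
    (hS : ∀ X : ℕ, ∑ n ∈ Icc 1 X, b n ≤ C * X) :
    ∀ s : ℝ, 1 < s → s ≤ 2 → ∀ F : Finset ℕ, (∀ n ∈ F, 1 ≤ n) →
      ∑ n ∈ F, b n * (n : ℝ) ^ (-s) ≤ 4 * C / (s - 1) := by
  intro s hs1 hs2 F hF
  set J := F.sup id + 1
  set r : ℝ := (2:ℝ) ^ (-(s-1))
  have hr0 : 0 ≤ r := by positivity
  have hr : (s - 1) / 2 ≤ 1 - r := half_le_one_sub_two_rpow_neg (by linarith) (by linarith)
  have hmap : ∀ n ∈ F, Nat.log 2 n ∈ range J := fun n hn => mem_range.mpr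
    (lt_of_le_of_lt (Nat.log_le_self _ _) (Nat.lt_succ_of_le (Finset.le_sup (f := id) hn)))
  rw [← sum_fiberwise_of_maps_to hmap]
  have hblock : ∀ j ∈ range J,
      ∑ n ∈ F with Nat.log 2 n = j, b n * (n : ℝ) ^ (-s) ≤ 2 * C * r ^ j := by
    intro j _
    have e1 : ∀ n ∈ F.filter (fun n => Nat.log 2 n = j),
        b n * (n : ℝ) ^ (-s) ≤ ((2:ℝ) ^ j) ^ (-s) * b n := by
      intro n hn
      obtain ⟨hnF, rfl⟩ := mem_filter.mp hn
      rw [mul_comm]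
      refine mul_le_mul_of_nonneg_right ?_ (hb n)
      refine Real.rpow_le_rpow_of_nonpos (by positivity) ?_ (by linarith)
      exact_mod_cast Nat.pow_log_le_self 2 (by have := hF n hnF; omega)
    have hsub : F.filter (fun n => Nat.log 2 n = j) ⊆ Icc 1 (2 ^ (j+1)) := by
      intro n hn
      obtain ⟨hnF, rfl⟩ := mem_filter.mp hn
      exact mem_Icc.mpr ⟨hF n hnF, (Nat.lt_pow_succ_log_self one_lt_two n).le⟩
    refine (sum_le_sum e1).trans ?_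
    rw [← mul_sum]
    have h3 : ∑ n ∈ F.filter (fun n => Nat.log 2 n = j), b n ≤ C * (2:ℝ) ^ (j+1) := by
      refine (sum_le_sum_of_subset_of_nonneg hsub fun n _ _ => hb n).trans ?_
      simpa using hS (2 ^ (j+1))
    refine (mul_le_mul_of_nonneg_left h3 (by positivity)).trans (le_of_eq ?_)
    have : r ^ j = ((2:ℝ) ^ j) ^ (-s) * (2:ℝ) ^ j := by
      rw [← Real.rpow_natCast r j, ← Real.rpow_mul two_pos.le, ← Real.rpow_natCast 2 j,
        ← Real.rpow_mul two_pos.le, ← Real.rpow_add two_pos]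
      ring_nf
    rw [this, pow_succ]; ring
  refine (sum_le_sum hblock).trans ?_
  rw [← mul_sum]
  have hr1 : r < 1 := by linarith
  have hg : ∑ j ∈ range J, r ^ j ≤ 2 / (s - 1) := by
    rw [geom_sum_eq hr1.ne, ← neg_div_neg_eq, neg_sub, neg_sub, div_le_div_iff₀ (by linarith)
      (by linarith)]
    nlinarith [pow_nonneg hr0 J]
  calc 2 * C * ∑ j ∈ range J, r ^ j ≤ 2 * C * (2 / (s - 1)) :=
        mul_le_mul_of_nonneg_left hg (by positivity)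
    _ = 4 * C / (s - 1) := by ring

theorem map_prod_primes (a : ℕ → ℂ) (N : ℕ) (h1 : a 1 = 1)
    (hmul : ∀ p : ℕ, p.Prime → ¬ p ∣ N → ∀ n : ℕ, ¬ p ∣ n → a (p * n) = a p * a n)
    (A : Finset ℕ) (hA : ∀ p ∈ A, p.Prime ∧ ¬ p ∣ N) :
    a (∏ p ∈ A, p) = ∏ p ∈ A, a p := by
  classical
  induction A using Finset.induction_on with
  | empty => simpa using h1
  | insert p A hp ih =>
    have hA' : ∀ q ∈ A, q.Prime ∧ ¬ q ∣ N := fun q hq => hA q (mem_insert_of_mem hq)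
    obtain ⟨hpp, hpN⟩ := hA p (mem_insert_self _ _)
    rw [prod_insert hp, prod_insert hp, hmul p hpp hpN, ih hA']
    intro hd
    obtain ⟨q, hq, hdq⟩ := (Prime.exists_mem_finset_dvd (Nat.Prime.prime hpp) hd)
    exact hp (((Nat.prime_dvd_prime_iff_eq hpp (hA' q hq).1).mp hdq) ▸ hq)

/-- The finite Euler product is at most the Dirichlet series. -/
theorem prod_one_add_le (a : ℕ → ℂ) (N : ℕ) (h1 : a 1 = 1)
    (hmul : ∀ p : ℕ, p.Prime → ¬ p ∣ N → ∀ n : ℕ, ¬ p ∣ n → a (p * n) = a p * a n)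
    (C : ℝ) (hC : 0 ≤ C) (hS : ∀ X : ℕ, ∑ n ∈ Icc 1 X, ‖a n‖ ^ 2 ≤ C * X)
    (s : ℝ) (hs1 : 1 < s) (hs2 : s ≤ 2) (P : Finset ℕ) (hP : ∀ p ∈ P, p.Prime ∧ ¬ p ∣ N) :
    ∏ p ∈ P, (1 + ‖a p‖ ^ 2 * (p : ℝ) ^ (-s)) ≤ 4 * C / (s - 1) := by
  classical
  rw [prod_one_add]
  have hterm : ∀ A ∈ P.powerset, ∏ p ∈ A, ‖a p‖ ^ 2 * (p : ℝ) ^ (-s) =
      (fun n : ℕ => ‖a n‖ ^ 2 * (n : ℝ) ^ (-s)) (∏ p ∈ A, p) := by
    intro A hA
    have hA' : ∀ q ∈ A, q.Prime ∧ ¬ q ∣ N := fun q hq => hP q (mem_powerset.mp hA hq)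
    simp only [map_prod_primes a N h1 hmul A hA', norm_prod, Nat.cast_prod,
      ← Real.finsetProd_rpow A (fun p => (p : ℝ)) (fun p _ => by positivity) (-s),
      ← prod_pow, prod_mul_distrib]
  rw [sum_congr rfl hterm, ← sum_image (g := fun A : Finset ℕ => ∏ p ∈ A, p)
    (f := fun n : ℕ => ‖a n‖ ^ 2 * (n : ℝ) ^ (-s))]
  · refine exists_sum_rpow_le (fun n => ‖a n‖ ^ 2) (fun n => by positivity) C hC hS s hs1 hs2 _ ?_
    intro n hn
    obtain ⟨A, hA, rfl⟩ := mem_image.mp hn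
    exact Nat.one_le_iff_ne_zero.mpr (prod_ne_zero_iff.mpr fun p hp =>
      (hP p (mem_powerset.mp hA hp)).1.ne_zero)
  · intro A hA B hB h
    have hA' : ∀ q ∈ A, q.Prime := fun q hq => (hP q (mem_powerset.mp hA hq)).1
    have hB' : ∀ q ∈ B, q.Prime := fun q hq => (hP q (mem_powerset.mp hB hq)).1
    rw [← Nat.primeFactors_prod hA', ← Nat.primeFactors_prod hB']
    exact congrArg Nat.primeFactors h

theorem sum_log_one_add_le (a : ℕ → ℂ) (N : ℕ) (h1 : a 1 = 1)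
    (hmul : ∀ p : ℕ, p.Prime → ¬ p ∣ N → ∀ n : ℕ, ¬ p ∣ n → a (p * n) = a p * a n)
    (C : ℝ) (hC : 0 < C) (hS : ∀ X : ℕ, ∑ n ∈ Icc 1 X, ‖a n‖ ^ 2 ≤ C * X)
    (s : ℝ) (hs1 : 1 < s) (hs2 : s ≤ 2) (P : Finset ℕ) (hP : ∀ p ∈ P, p.Prime ∧ ¬ p ∣ N) :
    ∑ p ∈ P, Real.log (1 + ‖a p‖ ^ 2 * (p : ℝ) ^ (-s)) ≤
      -Real.log (s - 1) + Real.log (4 * C) := by
  have hpos : ∀ p ∈ P, 0 < 1 + ‖a p‖ ^ 2 * (p : ℝ) ^ (-s) := fun p _ => by positivity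
  rw [← Real.log_prod fun p hp => (hpos p hp).ne']
  refine (Real.log_le_log (prod_pos hpos)
    (prod_one_add_le a N h1 hmul C hC.le hS s hs1 hs2 P hP)).trans (le_of_eq ?_)
  rw [Real.log_div (by positivity) (by linarith)]
  ring

/-- Crude bound: some constant times `log (1/(s-1))`. -/
theorem exists_sum_sq_prime_le (a : ℕ → ℂ) (N : ℕ) (h1 : a 1 = 1)
    (hmul : ∀ p : ℕ, p.Prime → ¬ p ∣ N → ∀ n : ℕ, ¬ p ∣ n → a (p * n) = a p * a n)
    (C : ℝ) (hC : 0 < C) (hS : ∀ X : ℕ, ∑ n ∈ Icc 1 X, ‖a n‖ ^ 2 ≤ C * X) :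
    ∃ A B : ℝ, 0 ≤ A ∧ ∀ s : ℝ, 1 < s → s ≤ 2 → ∀ P : Finset ℕ,
      (∀ p ∈ P, p.Prime ∧ ¬ p ∣ N) →
        ∑ p ∈ P, ‖a p‖ ^ 2 * (p : ℝ) ^ (-s) ≤ A * (-Real.log (s - 1)) + B := by
  refine ⟨1 + C, (1 + C) * Real.log (4 * C), by linarith, fun s hs1 hs2 P hP => ?_⟩
  rw [← mul_add]
  refine le_trans ?_ (mul_le_mul_of_nonneg_left
    (sum_log_one_add_le a N h1 hmul C hC hS s hs1 hs2 P hP) (by linarith))
  rw [mul_sum]
  refine sum_le_sum fun p hp => ?_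
  set x : ℝ := ‖a p‖ ^ 2 * (p : ℝ) ^ (-s)
  have hx0 : 0 ≤ x := by positivity
  have hp1 : 1 ≤ p := (hP p hp).1.one_lt.le
  have hxC : x ≤ C := by
    have h2 : ‖a p‖ ^ 2 ≤ C * p :=
      le_trans (single_le_sum (f := fun n => ‖a n‖ ^ 2) (fun n _ => by positivity)
        (mem_Icc.mpr ⟨hp1, le_rfl⟩)) (hS p)
    calc x ≤ C * p * (p : ℝ) ^ (-s) := mul_le_mul_of_nonneg_right h2 (by positivity)
      _ = C * (p : ℝ) ^ (1 - s) := by
        rw [sub_eq_add_neg, Real.rpow_add (by positivity), Real.rpow_one]; ring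
      _ ≤ C * 1 := mul_le_mul_of_nonneg_left
          (Real.rpow_le_one_of_one_le_of_nonpos (by exact_mod_cast hp1) (by linarith)) hC.le
      _ = C := mul_one C
  have hl : x / (1 + x) ≤ Real.log (1 + x) := by
    have := Real.one_sub_inv_le_log_of_pos (show 0 < 1 + x by linarith)
    convert this using 1; field_simp; ring
  have h3 : x / (1 + C) ≤ x / (1 + x) := div_le_div_of_nonneg_left hx0 (by linarith) (by linarith)
  have h4 := h3.trans hl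
  rw [div_le_iff₀ (by linarith : (0:ℝ) < 1 + C)] at h4
  linarith

/-- Sharp bound when the `a p` are bounded: constant `1`. -/
theorem exists_sum_sq_prime_le_of_bounded (a : ℕ → ℂ) (N : ℕ) (h1 : a 1 = 1)
    (hmul : ∀ p : ℕ, p.Prime → ¬ p ∣ N → ∀ n : ℕ, ¬ p ∣ n → a (p * n) = a p * a n)
    (C : ℝ) (hC : 0 < C) (hS : ∀ X : ℕ, ∑ n ∈ Icc 1 X, ‖a n‖ ^ 2 ≤ C * X)
    (M : ℝ) (hM : ∀ p : ℕ, p.Prime → ¬ p ∣ N → ‖a p‖ ≤ M) :
    ∃ B : ℝ, ∀ s : ℝ, 1 < s → s ≤ 2 → ∀ P : Finset ℕ, (∀ p ∈ P, p.Prime ∧ ¬ p ∣ N) →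
      ∑ p ∈ P, ‖a p‖ ^ 2 * (p : ℝ) ^ (-s) ≤ -Real.log (s - 1) + B := by
  have hsum : Summable fun n : ℕ => M ^ 4 * ((n : ℝ) ^ 2)⁻¹ :=
    ((Real.summable_nat_pow_inv).mpr one_lt_two).mul_left _
  refine ⟨Real.log (4 * C) + ∑' n : ℕ, M ^ 4 * ((n : ℝ) ^ 2)⁻¹, fun s hs1 hs2 P hP => ?_⟩
  have h := sum_log_one_add_le a N h1 hmul C hC hS s hs1 hs2 P hP
  have hp : ∀ p ∈ P, ‖a p‖ ^ 2 * (p : ℝ) ^ (-s) ≤
      Real.log (1 + ‖a p‖ ^ 2 * (p : ℝ) ^ (-s)) + M ^ 4 * ((p : ℝ) ^ 2)⁻¹ := by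
    intro p hp
    set x : ℝ := ‖a p‖ ^ 2 * (p : ℝ) ^ (-s)
    have hx0 : 0 ≤ x := by positivity
    have hp1 : (1:ℝ) ≤ p := by exact_mod_cast (hP p hp).1.one_lt.le
    have hl : x - x ^ 2 ≤ Real.log (1 + x) := by
      refine le_trans ?_ (Real.one_sub_inv_le_log_of_pos (show 0 < 1 + x by linarith))
      have e : 1 - (1 + x)⁻¹ = x / (1 + x) := by field_simp; ring
      rw [e, le_div_iff₀ (by linarith)]
      nlinarith [pow_nonneg hx0 3]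
    have hM2 : x ≤ M ^ 2 * (p : ℝ)⁻¹ := by
      refine mul_le_mul ?_ ?_ (by positivity) (by positivity)
      · exact pow_le_pow_left₀ (norm_nonneg _) (hM p (hP p hp).1 (hP p hp).2) 2
      · rw [← Real.rpow_neg_one]
        exact Real.rpow_le_rpow_of_exponent_le hp1 (by linarith)
    have hx2 : x ^ 2 ≤ M ^ 4 * ((p : ℝ) ^ 2)⁻¹ := by
      refine (pow_le_pow_left₀ hx0 hM2 2).trans (le_of_eq ?_)
      ring
    linarith
  have h2 := Summable.sum_le_tsum P (fun n _ => by positivity) hsum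
  have h3 := sum_le_sum hp
  rw [sum_add_distrib] at h3
  linarith

/-- `∑_{n ≤ X} b n = O(X)` from `∑ b n e^{-4 π n y} ≤ C / y`. -/
theorem sum_Icc_le_of_exp (b : ℕ → ℝ) (hb : ∀ n, 0 ≤ b n) (C : ℝ)
    (h : ∀ y : ℝ, 0 < y → ∀ s : Finset ℕ, ∑ n ∈ s, b n * Real.exp (-4 * π * n * y) ≤ C / y)
    (X : ℕ) : ∑ n ∈ Icc 1 X, b n ≤ Real.exp (4 * π) * C * X := by
  rcases Nat.eq_zero_or_pos X with rfl | hX
  · simp
  have hX' : (0:ℝ) < X := by exact_mod_cast hX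
  have h1 := h (1 / X) (by positivity) (Icc 1 X)
  rw [div_div_eq_mul_div, div_one] at h1
  have h2 : ∀ n ∈ Icc 1 X, b n ≤ Real.exp (4 * π) * (b n * Real.exp (-4 * π * n * (1 / X))) := by
    intro n hn
    rw [mul_left_comm, ← Real.exp_add]
    refine le_mul_of_one_le_right (hb n) (Real.one_le_exp ?_)
    have : (n : ℝ) * (1 / X) ≤ 1 := by
      rw [mul_one_div, div_le_one hX']; exact_mod_cast (mem_Icc.mp hn).2
    nlinarith [Real.pi_pos]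
  refine (sum_le_sum h2).trans ?_
  rw [← mul_sum, mul_assoc]
  exact mul_le_mul_of_nonneg_left h1 (Real.exp_pos _).le

end FLTA.DeligneSerre
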