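import Fermat.Prelude.Def_FLTPrelim_Modularity
import Mathlib.NumberTheory.ModularForms.Bounds
import Mathlib.Analysis.Fourier.AddCircle

/-!
Bessel's inequality for the coefficients of a weight one cusp form:
`∑ |a n|² e^{-4 π n y} ≤ C / y`.
-/

set_option autoImplicit false

open UpperHalfPlane Complex MeasureTheory Real

open scoped MatrixGroups

noncomputable section

namespace FLTA.DeligneSerre

/-- Horizontal segment at height `y`, composed with a function on the upper half plane. -/
def horizontal (f : ℍ → ℂ) (y : ℝ) (hy : 0 < y) (x : ℝ) : ℂ :=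
  f ⟨(x : ℂ) + y * Complex.I, by simpa using hy⟩

theorem sum_norm_sq_coeff_le {F : Type*} [FunLike F ℍ ℂ] {Γ : Subgroup (GL (Fin 2) ℝ)} {k : ℤ}
    [ModularFormClass F Γ k] (f : F) (hΓ : (1 : ℝ) ∈ Γ.strictPeriods) {y : ℝ} (hy : 0 < y)
    (s : Finset ℕ) :
    ∑ n ∈ s, ‖ModularFormClass.qCoeff f n‖ ^ 2 * Real.exp (-4 * π * n * y) ≤
      ∫ x in (0:ℝ)..1, ‖horizontal f y hy x‖ ^ 2 := by
  have hc : Continuous (horizontal f y hy) := by
    unfold horizontal
    have := (ModularFormClass.holo f).continuous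
    exact this.comp (Continuous.upperHalfPlaneMk (by fun_prop) _)
  have hL2 : MemLp (horizontal f y hy) 2 (volume.restrict (Set.Ioc (0:ℝ) 1)) := by
    obtain ⟨B, hB⟩ := (isCompact_Icc (a := (0:ℝ)) (b := 1)).exists_bound_of_continuousOn
      hc.continuousOn
    refine MemLp.of_bound hc.aestronglyMeasurable B ?_
    exact ae_restrict_of_forall_mem measurableSet_Ioc fun x hx => hB x (Set.Ioc_subset_Icc_self hx)
  have hs := hasSum_sq_fourierCoeffOn (f := horizontal f y hy) zero_lt_one hL2
  rw [sub_zero, inv_one, one_smul] at hs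
  have hterm : ∀ n : ℕ, ‖ModularFormClass.qCoeff f n‖ ^ 2 * Real.exp (-4 * π * n * y) =
      ‖fourierCoeffOn zero_lt_one (horizontal f y hy) (n : ℤ)‖ ^ 2 := by
    intro n
    have key : fourierCoeffOn zero_lt_one (horizontal f y hy) (n : ℤ) =
        (Real.exp (-2 * π * n * y) : ℂ) * ModularFormClass.qCoeff f n := by
      rw [fourierCoeffOn_eq_integral, ModularFormClass.qCoeff,
        ModularFormClass.qExpansion_coeff_eq_intervalIntegral f one_pos hΓ n hy]
      simp only [sub_zero, div_one, one_smul, Complex.ofReal_one, one_mul]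
      rw [← intervalIntegral.integral_const_mul]
      refine intervalIntegral.integral_congr fun x _ => ?_
      simp only [fourier_coe_apply, smul_eq_mul, horizontal, Function.Periodic.qParam,
        Complex.ofReal_one, div_one]
      rw [← mul_assoc]
      congr 1
      rw [← Complex.exp_nat_mul, one_div, ← Complex.exp_neg, Complex.ofReal_exp, ← Complex.exp_add]
      congr 1
      push_cast
      ring_nf
      simp [Complex.I_sq]
    rw [key, norm_mul, Complex.norm_real, Real.norm_of_nonneg (Real.exp_pos _).le, mul_pow,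
      ← Real.exp_nat_mul, mul_comm]
    congr 2
    push_cast
    ring
  simp only [hterm]
  have h2 := sum_le_hasSum (s.image (fun n : ℕ => (n : ℤ))) (fun i _ => by positivity) hs
  rwa [Finset.sum_image (fun a _ b _ h => Int.natCast_inj.mp h)] at h2

/-- A weight one cusp form has `∑ |a n|² e^{-4 π n y} ≤ C / y`. -/
theorem exists_sum_norm_sq_coeff_exp_le {F : Type*} [FunLike F ℍ ℂ]
    {Γ : Subgroup (GL (Fin 2) ℝ)} [Γ.IsArithmetic] [CuspFormClass F Γ 1] (f : F)
    (hΓ : (1 : ℝ) ∈ Γ.strictPeriods) :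
    ∃ C : ℝ, 0 ≤ C ∧ ∀ (y : ℝ), 0 < y → ∀ s : Finset ℕ,
      ∑ n ∈ s, ‖ModularFormClass.qCoeff f n‖ ^ 2 * Real.exp (-4 * π * n * y) ≤ C / y := by
  obtain ⟨C, hC⟩ := CuspFormClass.exists_bound (Γ := Γ) (k := 1) f
  refine ⟨C ^ 2, by positivity, fun y hy s => (sum_norm_sq_coeff_le f hΓ hy s).trans ?_⟩
  have hb : ∀ x ∈ Set.uIoc (0:ℝ) 1, ‖(‖horizontal f y hy x‖ ^ 2 : ℝ)‖ ≤ C ^ 2 / y := by
    intro x _
    have h := hC ⟨(x : ℂ) + y * Complex.I, by simpa using hy⟩
    rw [Real.norm_of_nonneg (by positivity)]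
    have hy2 : (y ^ ((1 : ℝ) / 2)) ^ 2 = y := by
      rw [← Real.rpow_natCast (y ^ ((1:ℝ)/2)) 2, ← Real.rpow_mul hy.le]
      norm_num
    calc ‖horizontal f y hy x‖ ^ 2 ≤ (C / y ^ ((1 : ℝ) / 2)) ^ 2 := by
          refine pow_le_pow_left₀ (norm_nonneg _) ?_ 2
          simpa [horizontal, UpperHalfPlane.im] using h
      _ = C ^ 2 / y := by rw [div_pow, hy2]
  have h := intervalIntegral.norm_integral_le_of_norm_le_const hb
  simp only [sub_zero, abs_one, mul_one] at h
  exact (le_abs_self _).trans (by simpa [Real.norm_eq_abs] using h)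

end FLTA.DeligneSerre
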